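import Fermat.Agent.LOneGRH.Euler
import Fermat.Agent.BurgessGeneral.PrimitiveRoot

/-!
# Power residues among the prime powers, on GRH

The `n ≤ x` prime to `p` carry the weights `Λ n (x - n)`. On GRH the `d`-th powers modulo `p`
carry a `1 / d` share of the total up to `O (x ^ (3/2) log p)`, for every `d ∣ p - 1`.
-/

set_option autoImplicit false

noncomputable section

namespace FA.Shoup

open Finset FA.FermatCount FA.BurgessGeneral
open FA.DirichletHadamard (GRHFor)
open FA.Gallagher (psiOneChar twist)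
open scoped ArithmeticFunction.vonMangoldt Classical

variable {p : ℕ} [Fact p.Prime]

/-- The weight of `n`. -/
def wt (x : ℝ) (n : ℕ) : ℝ := Λ n * (x - n)

/-- The `n ≤ x` prime to `p`. -/
def unitRange (p : ℕ) (x : ℝ) : Finset ℕ := (Icc 1 ⌊x⌋₊).filter fun n => ¬ p ∣ n

/-- The total weight. -/
def unitSum (p : ℕ) (x : ℝ) : ℝ := ∑ n ∈ unitRange p x, wt x n

/-- The weight of the `d`-th powers modulo `p`. -/
def powSum (p : ℕ) [Fact p.Prime] (x : ℝ) (d : ℕ) : ℝ :=
  ∑ n ∈ (unitRange p x).filter (fun n : ℕ => ∃ y : ZMod p, y ^ d = (n : ZMod p)), wt x n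

omit [Fact p.Prime] in
theorem wt_nonneg {x : ℝ} {n : ℕ} (hn : n ∈ unitRange p x) : 0 ≤ wt x n := by
  have h := mem_Icc.1 (mem_filter.1 hn).1
  exact mul_nonneg ArithmeticFunction.vonMangoldt_nonneg
    (sub_nonneg.2 ((Nat.le_floor_iff' (by omega)).1 h.2))

theorem natCast_ne_zero_of_mem {x : ℝ} {n : ℕ} (hn : n ∈ unitRange p x) : (n : ZMod p) ≠ 0 :=
  fun h => (mem_filter.1 hn).2 ((ZMod.natCast_eq_zero_iff n p).1 h)

/-- A sum of characters of `ψ₁` only sees the `n` prime to `p`. -/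
theorem psiOneChar_eq_sum_unitRange (χ : DirichletCharacter ℂ p) (x : ℝ) :
    psiOneChar χ x = ∑ n ∈ unitRange p x, χ n * (wt x n : ℂ) := by
  rw [psiOneChar, unitRange, sum_filter]
  refine sum_congr rfl fun n _ => ?_
  split_ifs with h
  · rw [twist, (ZMod.natCast_eq_zero_iff n p).2 h, MulChar.map_zero, zero_mul, zero_mul]
  · rw [twist, wt, Complex.ofReal_mul, mul_assoc]

theorem psiOneChar_one (x : ℝ) :
    psiOneChar (1 : DirichletCharacter ℂ p) x = (unitSum p x : ℂ) := by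
  rw [psiOneChar_eq_sum_unitRange, unitSum, Complex.ofReal_sum]
  exact sum_congr rfl fun n hn => by
    rw [MulChar.one_apply (Ne.isUnit (natCast_ne_zero_of_mem hn)), one_mul]

theorem unitSum_ge {x : ℝ} (hx : 40 ≤ x) :
    x / 2 * (x / 8 - 4 * Real.log (2 * p) * √x) ≤ unitSum p x := by
  have h := AnkenyBound.psiOne_ge_of_trivial (1 : DirichletCharacter ℂ p) hx fun l _ hl _ =>
    MulChar.one_apply (Ne.isUnit fun h0 : (l : ZMod p) = 0 => hl ?_)
  · rwa [psiOneChar_one, Complex.norm_real, Real.norm_eq_abs,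
      abs_of_nonneg (show 0 ≤ unitSum p x from sum_nonneg fun n hn => wt_nonneg hn)] at h
  · have hd := (ZMod.natCast_eq_zero_iff l p).1 h0
    rcases (Nat.dvd_prime ‹l.Prime›).1 hd with h1 | h1
    · exact absurd h1 (Fact.out : p.Prime).ne_one
    · exact h1 ▸ dvd_refl _

/-- **Orthogonality: the `d`-th powers carry a `1 / d` share.** -/
theorem abs_powSum_sub_le {d : ℕ} (hd : d ∣ p - 1) (hd0 : 0 < d) {x E : ℝ} (hE0 : 0 ≤ E)
    (hE : ∀ χ : DirichletCharacter ℂ p, χ ≠ 1 → ‖psiOneChar χ x‖ ≤ E) :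
    |powSum p x d - unitSum p x / d| ≤ E := by
  have hsum : (∑ χ ∈ killed (ZMod p) d, psiOneChar χ x) / (d : ℂ) = (powSum p x d : ℂ) := by
    simp only [psiOneChar_eq_sum_unitRange]
    rw [sum_comm, sum_div, powSum, Complex.ofReal_sum, sum_filter]
    refine sum_congr rfl fun n hn => ?_
    rw [← sum_mul, mul_div_right_comm, card_roots_div hd hd0 _ (natCast_ne_zero_of_mem hn)]
    split_ifs <;> simp
  have hd' : (0 : ℝ) < d := Nat.cast_pos.2 hd0
  have hsub : ((powSum p x d - unitSum p x / d : ℝ) : ℂ) =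
      (∑ χ ∈ (killed (ZMod p) d).erase 1, psiOneChar χ x) / (d : ℂ) := by
    push_cast
    rw [← hsum, ← add_sum_erase _ _ one_mem_killed, psiOneChar_one]
    ring
  rw [← Real.norm_eq_abs, ← Complex.norm_real, hsub, norm_div, Complex.norm_natCast,
    div_le_iff₀ hd']
  refine (norm_sum_le_of_le _ fun χ hχ => hE χ (mem_erase.1 hχ).1).trans ?_
  rw [sum_const, nsmul_eq_mul, mul_comm E]
  refine mul_le_mul_of_nonneg_right (Nat.cast_le.2 ((card_le_card (erase_subset _ _)).trans ?_)) hE0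
  rw [card_killed, ZMod.card, Nat.gcd_eq_left hd]

end FA.Shoup

end
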