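import Fermat.Agent.ShoupPrimitiveRoot.Moments
import Fermat.Agent.CombinatorialSieve.Integers
import Fermat.Agent.PrimesMinusOne.BrunTitchmarsh

/-!
# Shoup: a small prime primitive root, on GRH

The sieve over the small primes `q ∣ p - 1` keeps `≫ x² / log Z` of the weight free of `q`-th
powers, and the primes `q ≥ Z` remove at most `ω (p - 1) / Z` of it.
-/

set_option autoImplicit false
set_option exponentiation.threshold 600

noncomputable section

namespace FA.Shoup

open Finset FA.BurgessGeneral FA.CombinatorialSieve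
open FA.DirichletHadamard (GRHFor)
open FA.PrimesMinusOne (invFun invFun_apply invFun_isMultiplicative)
open scoped ArithmeticFunction.vonMangoldt Classical

variable {p : ℕ} [Fact p.Prime]

/-- The primes `q < Z` dividing `p - 1`. -/
def smallPrimes (p : ℕ) (Z : ℝ) : Finset ℕ :=
  (p - 1).primeFactors.filter fun q : ℕ => (q : ℝ) < Z

/-- The product of the small `q` of which `n` is a power residue. -/
def powIdx (p : ℕ) [Fact p.Prime] (Z : ℝ) (n : ℕ) : ℕ :=
  ∏ q ∈ (smallPrimes p Z).filter (fun q : ℕ => ∃ y : ZMod p, y ^ q = (n : ZMod p)), q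

omit [Fact p.Prime] in
theorem prime_of_smallPrimes {Z : ℝ} {q : ℕ} (hq : q ∈ smallPrimes p Z) : q.Prime :=
  Nat.prime_of_mem_primeFactors (mem_filter.1 hq).1

/-- The sieve by the small primes dividing `p - 1`, on the power residues. -/
def residueSieve (p : ℕ) [Fact p.Prime] (x Z : ℝ) : BoundingSieve where
  support := (unitRange p x).image (powIdx p Z)
  prodPrimes := ∏ q ∈ smallPrimes p Z, q
  prodPrimes_squarefree := squarefree_prod_of_pairwise_isCoprime
    (fun _ ha _ hb h => Nat.coprime_iff_isRelPrime.1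
      ((Nat.coprime_primes (prime_of_smallPrimes ha) (prime_of_smallPrimes hb)).2 h))
    fun _ ha => (prime_of_smallPrimes ha).squarefree
  weights m := ∑ n ∈ (unitRange p x).filter (fun n => powIdx p Z n = m), wt x n
  weights_nonneg _ := sum_nonneg fun _ hn => wt_nonneg (mem_filter.1 hn).1
  totalMass := unitSum p x
  nu := invFun
  nu_mult := invFun_isMultiplicative
  nu_pos_of_prime q hq _ := by
    rw [invFun_apply]
    exact inv_pos.2 (Nat.cast_pos.2 hq.pos)
  nu_lt_one_of_prime q hq _ := by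
    rw [invFun_apply]
    exact inv_lt_one_of_one_lt₀ (Nat.one_lt_cast.2 hq.one_lt)

theorem primeFactors_residueSieve (x Z : ℝ) :
    (residueSieve p x Z).prodPrimes.primeFactors = smallPrimes p Z :=
  Nat.primeFactors_prod fun _ hq => prime_of_smallPrimes hq

theorem prodPrimes_dvd (x Z : ℝ) : (residueSieve p x Z).prodPrimes ∣ p - 1 :=
  (prod_dvd_prod_of_subset _ _ _ (filter_subset _ _)).trans (Nat.prod_primeFactors_dvd _)

/-- Sums over the fibres of `powIdx`. -/
theorem sum_fibres (x Z : ℝ) (φ : ℕ → Prop) :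
    (∑ m ∈ (unitRange p x).image (powIdx p Z), if φ m then
        ∑ n ∈ (unitRange p x).filter (fun n => powIdx p Z n = m), wt x n else 0) =
      ∑ n ∈ unitRange p x, if φ (powIdx p Z n) then wt x n else 0 := by
  rw [← sum_fiberwise_of_maps_to (g := powIdx p Z) (t := (unitRange p x).image (powIdx p Z))
    fun n hn => mem_image_of_mem _ hn]
  refine sum_congr rfl fun m _ => ?_
  split_ifs with h
  · exact sum_congr rfl fun n hn => by rw [if_pos (by rw [(mem_filter.1 hn).2]; exact h)]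
  · exact (sum_eq_zero fun n hn => by rw [if_neg (by rw [(mem_filter.1 hn).2]; exact h)]).symm

/-- `d` divides the index iff `n` is a `d`-th power. -/
theorem dvd_powIdx_iff {x Z : ℝ} {d n : ℕ} (hd : d ∣ (residueSieve p x Z).prodPrimes)
    (hn : n ∈ unitRange p x) :
    d ∣ powIdx p Z n ↔ ∃ y : ZMod p, y ^ d = (n : ZMod p) := by
  have hsq := (residueSieve p x Z).prodPrimes_squarefree
  have hdsq := hsq.squarefree_of_dvd hd
  have hsub : d.primeFactors ⊆ smallPrimes p Z := by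
    rw [← primeFactors_residueSieve (p := p) x Z]
    exact Nat.primeFactors_mono hd hsq.ne_zero
  obtain ⟨A, hA⟩ : ∃ A, A = (smallPrimes p Z).filter
      (fun q : ℕ => ∃ y : ZMod p, y ^ q = (n : ZMod p)) := ⟨_, rfl⟩
  have hAm : ∀ q : ℕ, q ∈ A ↔ q ∈ smallPrimes p Z ∧ ∃ y : ZMod p, y ^ q = (n : ZMod p) := by
    intro q
    rw [hA, mem_filter]
  have hAp : ∀ q ∈ A, q.Prime := fun q hq => prime_of_smallPrimes ((hAm q).1 hq).1
  have e : powIdx p Z n = ∏ q ∈ A, q := by rw [powIdx, hA]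
  rw [e]
  constructor
  · intro h
    have hm := Nat.primeFactors_mono h (prod_ne_zero_iff.2 fun q hq => (hAp q hq).ne_zero)
    rw [Nat.primeFactors_prod hAp] at hm
    have h2 := exists_pow_prod_eq (natCast_ne_zero_of_mem hn)
      (fun q hq => Nat.prime_of_mem_primeFactors hq)
      fun q hq => ((hAm q).1 (hm hq)).2
    rwa [Nat.prod_primeFactors_of_squarefree hdsq] at h2
  · rintro ⟨y, hy⟩
    rw [← Nat.prod_primeFactors_of_squarefree hdsq]
    refine prod_dvd_prod_of_subset _ _ _ fun q hq => ?_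
    rw [hAm]
    obtain ⟨k, hk⟩ := Nat.dvd_of_mem_primeFactors hq
    exact ⟨hsub hq, y ^ k, by rw [← pow_mul, mul_comm, ← hk, hy]⟩

theorem residueSieve_multSum {x Z : ℝ} {d : ℕ} (hd : d ∣ (residueSieve p x Z).prodPrimes) :
    (residueSieve p x Z).multSum d = powSum p x d := by
  have h := sum_fibres (p := p) x Z fun m => d ∣ m
  rw [BoundingSieve.multSum]
  have h2 : (∑ n ∈ unitRange p x, if d ∣ powIdx p Z n then wt x n else 0) = powSum p x d := by
    rw [powSum, sum_filter]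
    exact sum_congr rfl fun n hn => if_congr (dvd_powIdx_iff hd hn) rfl rfl
  refine Eq.trans ?_ h2
  convert h using 3 <;> rfl

theorem residueSieve_siftedSum (x Z : ℝ) :
    (residueSieve p x Z).siftedSum = ∑ n ∈ (unitRange p x).filter (fun n : ℕ =>
      ∀ q ∈ smallPrimes p Z, ¬ ∃ y : ZMod p, y ^ q = (n : ZMod p)), wt x n := by
  obtain ⟨P, hP⟩ : ∃ P, P = (residueSieve p x Z).prodPrimes := ⟨_, rfl⟩
  have h := sum_fibres (p := p) x Z fun m => Nat.Coprime P m
  rw [BoundingSieve.siftedSum]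
  refine Eq.trans (b := ∑ n ∈ unitRange p x, if Nat.Coprime P (powIdx p Z n) then wt x n else 0)
    (by rw [hP] at h ⊢; convert h using 3 <;> rfl) ?_
  rw [sum_filter]
  refine sum_congr rfl fun n hn => if_congr ⟨fun hc q hq hy => ?_, fun hall => ?_⟩ rfl rfl
  · have hqP : q ∣ (residueSieve p x Z).prodPrimes := dvd_prod_of_mem _ hq
    exact (prime_of_smallPrimes hq).not_dvd_one (hc ▸ Nat.dvd_gcd (hP ▸ hqP)
      ((dvd_powIdx_iff hqP hn).2 hy))
  · by_contra hc
    obtain ⟨q, hq, hqP, hqn⟩ := Nat.Prime.not_coprime_iff_dvd.1 hc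
    rw [hP] at hqP
    refine hall q ?_ ((dvd_powIdx_iff hqP hn).1 hqn)
    rw [← primeFactors_residueSieve x Z, Nat.mem_primeFactors]
    exact ⟨hq, hqP, (residueSieve p x Z).prodPrimes_squarefree.ne_zero⟩

/-- Below the level there are at most `Z ^ s` remainders, each `≤ E`. -/
theorem residueSieve_remSum_le {x Z s E : ℝ} (hZ : 0 ≤ Z) (hE0 : 0 ≤ E)
    (hE : ∀ d : ℕ, d ∣ p - 1 → 0 < d → |powSum p x d - unitSum p x / d| ≤ E) :
    remSum (residueSieve p x Z) (Z ^ s) ≤ Z ^ s * E := by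
  rw [remSum]
  refine (sum_le_card_nsmul _ _ E fun d hd => ?_).trans ?_
  · have hd' := Nat.dvd_of_mem_divisors (mem_filter.1 hd).1
    rw [BoundingSieve.rem, residueSieve_multSum hd',
      show (residueSieve p x Z).nu d = (d : ℝ)⁻¹ from invFun_apply d,
      show (residueSieve p x Z).totalMass = unitSum p x from rfl, inv_mul_eq_div]
    exact hE d (hd'.trans (prodPrimes_dvd x Z)) (Nat.pos_of_mem_divisors (mem_filter.1 hd).1)
  · rw [nsmul_eq_mul]
    refine mul_le_mul_of_nonneg_right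
      (le_trans ?_ (Nat.floor_le (Real.rpow_nonneg hZ s))) hE0
    refine Nat.cast_le.2 ((card_le_card (t := Icc 1 ⌊Z ^ s⌋₊) fun d hd => ?_).trans
      (Nat.card_Icc 1 _).le)
    rw [mem_filter] at hd
    exact mem_Icc.2 ⟨Nat.pos_of_mem_divisors hd.1, Nat.le_floor hd.2.le⟩

theorem residueSieve_dimension (x Z : ℝ) :
    DimensionBound (residueSieve p x Z).prodPrimes.primeFactors (residueSieve p x Z).nu Z 1
      (Real.exp 13) := by
  rw [primeFactors_residueSieve, show (13 : ℝ) = 11 * 1 + 2 by norm_num,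
    show (residueSieve p x Z).nu = invFun from rfl]
  refine dimensionBound_of_le zero_le_one zero_le_two (fun q hq =>
    ⟨prime_of_smallPrimes hq, (mem_filter.1 hq).2⟩) (fun q hq => ?_) fun q hq => ?_
  · rw [invFun_apply]
    exact ⟨by positivity, inv_lt_one_of_one_lt₀
      (Nat.one_lt_cast.2 (prime_of_smallPrimes hq).one_lt)⟩
  · have h2 : (2 : ℝ) ≤ q := Nat.ofNat_le_cast.2 (prime_of_smallPrimes hq).two_le
    rw [invFun_apply]
    rw [show (q : ℝ)⁻¹ / (1 - (q : ℝ)⁻¹) = 1 / ((q : ℝ) - 1) by field_simp,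
      show (1 : ℝ) / q + 2 / (q : ℝ) ^ 2 = ((q : ℝ) + 2) / (q : ℝ) ^ 2 by field_simp,
      div_le_div_iff₀ (by linarith) (by positivity)]
    nlinarith

/-- The product over the small primes of `p - 1` is at least the full Mertens product. -/
theorem sieveProduct_ge (x Z : ℝ) :
    ∏ q ∈ (range ⌈Z⌉₊).filter Nat.Prime, (1 - (q : ℝ)⁻¹) ≤
      sieveProduct (residueSieve p x Z) := by
  rw [sieveProduct, primeFactors_residueSieve]
  show _ ≤ ∏ q ∈ smallPrimes p Z, (1 - (q : ℝ)⁻¹)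
  have hsub : smallPrimes p Z ⊆ (range ⌈Z⌉₊).filter Nat.Prime := fun q hq =>
    mem_filter.2 ⟨mem_range.2 (Nat.lt_ceil.2 (mem_filter.1 hq).2), prime_of_smallPrimes hq⟩
  have h01 : ∀ q : ℕ, q.Prime → 0 ≤ 1 - (q : ℝ)⁻¹ ∧ 1 - (q : ℝ)⁻¹ ≤ 1 := fun q hq =>
    ⟨sub_nonneg.2 (inv_le_one_of_one_le₀ (Nat.one_le_cast.2 hq.one_le)),
      sub_le_self 1 (by positivity)⟩
  rw [← prod_sdiff hsub]
  refine mul_le_of_le_one_left (prod_nonneg fun q hq => (h01 q (prime_of_smallPrimes hq)).1) ?_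
  exact prod_le_one (fun q hq => (h01 q (mem_filter.1 (mem_sdiff.1 hq).1).2).1)
    fun q hq => (h01 q (mem_filter.1 (mem_sdiff.1 hq).1).2).2

/-- Removing the large primes. -/
theorem siftedSum_le {x Z : ℝ} :
    (residueSieve p x Z).siftedSum ≤
      (∑ n ∈ (unitRange p x).filter (fun n : ℕ => NoPrimePower (n : ZMod p)), wt x n) +
        ∑ q ∈ (p - 1).primeFactors.filter (fun q : ℕ => Z ≤ (q : ℝ)), powSum p x q := by
  have e : ∀ (φ : Prop) [Decidable φ] (g : ℕ → ℝ),
      (if φ then ∑ n ∈ unitRange p x, g n else 0) =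
        ∑ n ∈ unitRange p x, if φ then g n else 0 := fun φ _ g => by split_ifs <;> simp
  simp only [residueSieve_siftedSum, powSum, sum_filter, e]
  rw [sum_comm (s := (p - 1).primeFactors), ← sum_add_distrib]
  refine sum_le_sum fun n hn => ?_
  have hw := wt_nonneg hn
  have hnn : ∀ q ∈ (p - 1).primeFactors,
      0 ≤ if Z ≤ (q : ℝ) then if ∃ y : ZMod p, y ^ q = (n : ZMod p) then wt x n else 0 else 0 := by
    intro q _
    split_ifs <;> linarith
  by_cases hA : ∀ q ∈ smallPrimes p Z, ¬ ∃ y : ZMod p, y ^ q = (n : ZMod p)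
  · rw [if_pos hA]
    by_cases hB : NoPrimePower (n : ZMod p)
    · rw [if_pos hB]
      exact le_add_of_nonneg_right (sum_nonneg hnn)
    · rw [if_neg hB, zero_add]
      simp only [NoPrimePower, not_and, not_forall, not_not] at hB
      obtain ⟨q, hq, hy⟩ := hB (natCast_ne_zero_of_mem hn)
      have hZq : Z ≤ (q : ℝ) := not_lt.1 fun hlt => hA q (mem_filter.2 ⟨hq, hlt⟩) hy
      refine le_trans (le_of_eq ?_) (single_le_sum hnn hq)
      rw [if_pos hZq, if_pos hy]
  · rw [if_neg hA]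
    refine add_nonneg ?_ (sum_nonneg hnn)
    split_ifs <;> linarith

/-- A positive remainder gives a prime primitive root. -/
theorem exists_prime_of_sum_pos {x : ℝ}
    (h : 0 < ∑ n ∈ (unitRange p x).filter (fun n : ℕ => NoPrimePower (n : ZMod p)), wt x n) :
    ∃ l : ℕ, l.Prime ∧ (l : ℝ) ≤ x ∧ orderOf (l : ZMod p) = p - 1 := by
  obtain ⟨n, hn, hne⟩ := exists_ne_zero_of_sum_ne_zero h.ne'
  rw [mem_filter] at hn
  have hpp : IsPrimePow n :=
    ArithmeticFunction.vonMangoldt_ne_zero_iff.1 fun h0 => hne (by rw [wt, h0, zero_mul])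
  obtain ⟨l, k, hl, hk, rfl⟩ := (isPrimePow_nat_iff n).1 hpp
  have hmem := mem_Icc.1 (mem_filter.1 hn.1).1
  refine ⟨l, hl, ?_, ?_⟩
  · exact (Nat.cast_le.2 (Nat.le_self_pow hk.ne' l)).trans
      ((Nat.le_floor_iff' (by omega)).1 hmem.2)
  · have h1 := orderOf_eq_of_noPrimePower hn.2
    rw [Nat.cast_pow] at h1
    have hl0 : (l : ZMod p) ≠ 0 := fun e =>
      hn.2.1 (by rw [Nat.cast_pow, e, zero_pow hk.ne'])
    exact Nat.dvd_antisymm (orderOf_dvd_of_pow_eq_one (ZMod.pow_card_sub_one_eq_one hl0))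
      (h1 ▸ orderOf_pow_dvd k)

/-- **Shoup: a prime primitive root `≪ (ω (p - 1) + 1) ^ 578 log² p`, on GRH.** -/
theorem exists_prime_primitiveRoot : ∃ C : ℝ, 0 < C ∧ ∀ (p : ℕ) [Fact p.Prime],
    (∀ χ : DirichletCharacter ℂ p, χ ≠ 1 → GRHFor χ) →
      ∃ l : ℕ, l.Prime ∧ orderOf (l : ZMod p) = p - 1 ∧
        (l : ℝ) ≤ C * (((p - 1).primeFactors.card : ℝ) + 1) ^ 578 * Real.log (2 * p) ^ 2 := by
  obtain ⟨C₀, hC₀, hpsi⟩ := LOneGRH.exists_psiOne_nontrivial
  obtain ⟨c, _, hc, hmert⟩ := exists_mertens_product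
  obtain ⟨A, hA⟩ : ∃ A, A = 8 / c + 1 := ⟨_, rfl⟩
  have hA1 : 1 ≤ A := by rw [hA]; linarith [div_pos (show (0 : ℝ) < 8 by norm_num) hc]
  obtain ⟨M, hM⟩ : ∃ M, M = 512 * C₀ / c + 70 := ⟨_, rfl⟩
  have hM70 : 70 ≤ M := by
    rw [hM]
    linarith [div_nonneg (show 0 ≤ 512 * C₀ by linarith) hc.le]
  refine ⟨M ^ 2 * (A * 2) ^ 578, by positivity, fun p _ hG => ?_⟩
  obtain ⟨w, hw⟩ : ∃ w : ℝ, w = ((p - 1).primeFactors.card : ℝ) := ⟨_, rfl⟩
  have hw0 : 0 ≤ w := hw ▸ Nat.cast_nonneg _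
  obtain ⟨L, hL⟩ : ∃ L, L = Real.log (2 * p) := ⟨_, rfl⟩
  rw [← hw, ← hL]
  have hp2 : (2 : ℝ) ≤ p := Nat.ofNat_le_cast.2 (Fact.out : p.Prime).two_le
  have hL2 : 0.69 ≤ L := by
    rw [hL]
    linarith [Real.log_le_log two_pos (show (2 : ℝ) ≤ 2 * p by linarith), Real.log_two_gt_d9]
  obtain ⟨R, hR⟩ : ∃ R, R = A * (w + 2) := ⟨_, rfl⟩
  have hwR : w + 2 ≤ R := by
    rw [hR]
    exact le_mul_of_one_le_left (by linarith) hA1
  have hcR : 8 * w ≤ c * R := by
    have e : c * R = (8 + c) * (w + 2) := by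
      rw [hR, hA]
      field_simp
    rw [e]
    nlinarith
  have hR2 : 2 ≤ R := by linarith
  obtain ⟨t, ht⟩ : ∃ t, t = M * R ^ 289 * L := ⟨_, rfl⟩
  have hR289 : R ≤ R ^ 289 := le_self_pow₀ (by linarith) (by norm_num)
  have ht48 : 48 ≤ t := by
    have h1 : (70 : ℝ) * 1 * 0.69 ≤ M * R ^ 289 * L := by
      gcongr
      exact one_le_pow₀ (by linarith)
    rw [ht]
    linarith
  obtain ⟨x, hx⟩ : ∃ x, x = t ^ 2 := ⟨_, rfl⟩
  have hsx : √x = t := hx ▸ Real.sqrt_sq (by linarith)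
  have hx40 : 40 ≤ x := by rw [hx]; nlinarith
  suffices h : 0 < ∑ n ∈ (unitRange p x).filter (fun n : ℕ => NoPrimePower (n : ZMod p)),
      wt x n by
    obtain ⟨l, hl, hlx, hord⟩ := exists_prime_of_sum_pos h
    refine ⟨l, hl, hord, hlx.trans ?_⟩
    have hR' : R ≤ A * 2 * (w + 1) := by
      rw [hR, mul_assoc]
      exact mul_le_mul_of_nonneg_left (by linarith) (by linarith)
    calc x = M ^ 2 * R ^ 578 * L ^ 2 := by rw [hx, ht]; ring
      _ ≤ M ^ 2 * (A * 2 * (w + 1)) ^ 578 * L ^ 2 := by gcongr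
      _ = _ := by rw [mul_pow, ← mul_assoc]
  obtain ⟨E, hE⟩ : ∃ E, E = C₀ * x * t * L := ⟨_, rfl⟩
  have hE0 : 0 ≤ E := by
    rw [hE]
    have : 0 ≤ x := by linarith
    have : 0 ≤ t := by linarith
    positivity
  have hchi : ∀ χ : DirichletCharacter ℂ p, χ ≠ 1 → ‖FA.Gallagher.psiOneChar χ x‖ ≤ E := by
    intro χ hχ
    rw [hE, hL, ← hsx]
    exact hpsi p χ hχ (hG χ hχ) x (by linarith)
  have hpow : ∀ d : ℕ, d ∣ p - 1 → 0 < d → |powSum p x d - unitSum p x / d| ≤ E :=
    fun d hd hd0 => abs_powSum_sub_le hd hd0 hE0 hchi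
  obtain ⟨Z, hZ⟩ : ∃ Z, Z = R ^ 2 := ⟨_, rfl⟩
  have hZ2 : 2 ≤ Z := by rw [hZ]; nlinarith
  have hlogZ : 0 < Real.log Z := Real.log_pos (by linarith)
  have hlogR : Real.log Z ≤ 2 * R := by
    rw [hZ, Real.log_pow]
    push_cast
    linarith [Real.log_le_sub_one_of_pos (show 0 < R by linarith)]
  obtain ⟨U, hU⟩ : ∃ U, U = unitSum p x := ⟨_, rfl⟩
  have hUlow : x ^ 2 / 32 ≤ U := by
    have h := unitSum_ge (p := p) hx40
    rw [← hU, hsx, ← hL] at h
    have h64 : 64 * L * t ≤ x := by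
      rw [hx, pow_two]
      refine mul_le_mul_of_nonneg_right ?_ (by linarith)
      rw [ht]
      refine mul_le_mul_of_nonneg_right ?_ (by linarith)
      nlinarith
    refine le_trans ?_ h
    nlinarith
  have hU0 : 0 ≤ U := (by positivity : (0 : ℝ) ≤ x ^ 2 / 32).trans hUlow
  have hexp : 20 * Real.exp ((10 : ℕ) : ℝ) * Real.exp 13 ^ 10 * Real.exp (-(144 : ℝ)) ≤ 1 / 2 := by
    rw [← Real.exp_nat_mul, show ∀ a b c : ℝ, 20 * a * b * c = 20 * (a * b * c) from
      fun a b c => by ring, ← Real.exp_add, ← Real.exp_add]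
    have h4 : Real.exp 4 * Real.exp (-4) = 1 := by rw [← Real.exp_add]; norm_num
    have h54 : (40 : ℝ) ≤ Real.exp 4 := by
      rw [show Real.exp 4 = Real.exp 1 ^ 4 by rw [← Real.exp_nat_mul]; norm_num]
      linarith [pow_le_pow_left₀ (by norm_num) Real.exp_one_gt_d9.le 4,
        show (40 : ℝ) ≤ (2.7182818283 : ℝ) ^ 4 by norm_num]
    norm_num at h4 ⊢
    nlinarith [Real.exp_pos (-4 : ℝ)]
  have hsieve := half_le_siftedSum (residueSieve p x Z) (κ := 1) (β := 10) (K := Real.exp 13)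
    (s := 144) (by rw [show (residueSieve p x Z).totalMass = U from hU.symm]; exact hU0)
    (fun q hq => by
      rw [primeFactors_residueSieve] at hq
      exact (mem_filter.1 hq).2) hZ2 zero_le_one (by norm_num) (by norm_num)
    (Real.one_le_exp (by norm_num)) (by norm_num) hexp (residueSieve_dimension x Z)
  have hrem := residueSieve_remSum_le (x := x) (Z := Z) (s := 144) (by linarith) hE0 hpow
  rw [show Z ^ (144 : ℝ) = R ^ 288 by
    rw [show (144 : ℝ) = ((144 : ℕ) : ℝ) by norm_num, Real.rpow_natCast, hZ, ← pow_mul]]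
    at hsieve hrem
  have hV : c / Real.log Z ≤ sieveProduct (residueSieve p x Z) :=
    (hmert Z hZ2).1.trans (sieveProduct_ge x Z)
  rw [show (residueSieve p x Z).totalMass = U from hU.symm] at hsieve
  have hlarge : ∑ q ∈ (p - 1).primeFactors.filter (fun q : ℕ => Z ≤ (q : ℝ)), powSum p x q ≤
      w * (U / Z + E) := by
    refine (sum_le_card_nsmul _ _ (U / Z + E) fun q hq => ?_).trans ?_
    · rw [mem_filter] at hq
      have h1 := (abs_le.1 (hpow q (Nat.dvd_of_mem_primeFactors hq.1)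
        (Nat.prime_of_mem_primeFactors hq.1).pos)).2
      have h2 : unitSum p x / q ≤ U / Z :=
        hU ▸ div_le_div_of_nonneg_left (hU ▸ hU0) (by linarith) hq.2
      linarith
    · rw [nsmul_eq_mul]
      exact mul_le_mul_of_nonneg_right (hw ▸ Nat.cast_le.2 (card_filter_le _ _)) (by positivity)
  have hwZ : w / Z ≤ c / (4 * Real.log Z) := by
    rw [div_le_div_iff₀ (by linarith) (by positivity)]
    calc w * (4 * Real.log Z) ≤ w * (4 * (2 * R)) := by gcongr
      _ = 8 * w * R := by ring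
      _ ≤ c * R * R := by gcongr
      _ = c * Z := by rw [hZ]; ring
  have hnum : (R ^ 288 + w) * E < x ^ 2 / 32 * (c / (4 * Real.log Z)) := by
    rw [show x ^ 2 / 32 * (c / (4 * Real.log Z)) = c * x ^ 2 / (128 * Real.log Z) by
      field_simp
      ring, lt_div_iff₀ (by positivity), hE]
    have hsum : R ^ 288 + w ≤ 2 * R ^ 288 := by
      linarith [le_self_pow₀ (show 1 ≤ R by linarith) (show 288 ≠ 0 by norm_num)]
    have hx0 : 0 ≤ x := by linarith
    have ht0 : 0 ≤ t := by linarith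
    calc (R ^ 288 + w) * (C₀ * x * t * L) * (128 * Real.log Z)
        ≤ 2 * R ^ 288 * (C₀ * x * t * L) * (128 * (2 * R)) := by gcongr
      _ = x * t * (512 * C₀ * R ^ 289 * L) := by ring
      _ < x * t * ((512 * C₀ + 70 * c) * R ^ 289 * L) := by
          have hpos : 0 < x * t * (70 * c * R ^ 289 * L) := by
            have : 0 < x := by linarith
            have : 0 < t := by linarith
            positivity
          linarith
      _ = c * x ^ 2 := by
          have e : c * t = (512 * C₀ + 70 * c) * R ^ 289 * L := by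
            rw [ht, hM]
            field_simp
          rw [← e, hx]
          ring
  have hmain : U * (c / (4 * Real.log Z)) ≤
      U * sieveProduct (residueSieve p x Z) / 2 - w * (U / Z) := by
    have h1 := mul_le_mul_of_nonneg_left hV hU0
    have h2 := mul_le_mul_of_nonneg_left hwZ hU0
    have e : U * (c / (4 * Real.log Z)) = U * (c / Real.log Z) / 4 := by ring
    have e' : w * (U / Z) = U * (w / Z) := by ring
    linarith
  have hsift := siftedSum_le (p := p) (x := x) (Z := Z)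
  have hlow := mul_le_mul_of_nonneg_right hUlow (show 0 ≤ c / (4 * Real.log Z) by positivity)
  linarith

/-- **The least primitive root is polylogarithmic on GRH.** -/
theorem exists_primitiveRoot_polylog : ∃ C : ℝ, 0 < C ∧ ∀ (p : ℕ) [Fact p.Prime],
    (∀ χ : DirichletCharacter ℂ p, χ ≠ 1 → GRHFor χ) →
      ∃ g : ℕ, g.Prime ∧ orderOf (g : ZMod p) = p - 1 ∧
        (g : ℝ) ≤ C * Real.log (2 * p) ^ 580 := by
  obtain ⟨C, hC, h⟩ := exists_prime_primitiveRoot
  refine ⟨C * 4 ^ 578, by positivity, fun p _ hG => ?_⟩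
  obtain ⟨l, hl, hord, hle⟩ := h p hG
  refine ⟨l, hl, hord, hle.trans ?_⟩
  obtain ⟨L, hL⟩ : ∃ L, L = Real.log (2 * p) := ⟨_, rfl⟩
  rw [← hL]
  have hp := (Fact.out : p.Prime).two_le
  have hL2 : 0.69 ≤ L := by
    have hp2 : (2 : ℝ) ≤ p := Nat.ofNat_le_cast.2 hp
    rw [hL]
    linarith [Real.log_le_log two_pos (show (2 : ℝ) ≤ 2 * p by linarith), Real.log_two_gt_d9]
  have hw : ((p - 1).primeFactors.card : ℝ) + 1 ≤ 4 * L := by
    have : NeZero (p - 1) := ⟨by omega⟩
    have h1 := GRHProgressions.card_primeFactors_le (p - 1)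
    have h2 : Real.log ((p - 1 : ℕ) : ℝ) ≤ L := by
      rw [hL]
      refine Real.log_le_log (Nat.cast_pos.2 (by omega)) ?_
      have : ((p - 1 : ℕ) : ℝ) ≤ p := Nat.cast_le.2 (Nat.sub_le _ _)
      linarith [(Nat.cast_nonneg p : (0 : ℝ) ≤ p)]
    linarith
  calc C * (((p - 1).primeFactors.card : ℝ) + 1) ^ 578 * L ^ 2
      ≤ C * (4 * L) ^ 578 * L ^ 2 := by gcongr
    _ = _ := by rw [mul_pow, pow_add L 578 2]; ring

end FA.Shoup

end
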